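/-
Program G (S56), block GW-Euler, node (EU-1e), part 1: `G`-sets.  helper7.
Additivity of an additive invariant on `permTwist ρ Ω` over disjoint unions of `G`-sets, the
`G`-set `OmegaL L = ⊔_{D ∈ L} G ⧸ D` attached to a list of subgroups, its fixed-point counts.
-/
import Fermat.Agent.TW.Euler.Ind.Contracts

set_option autoImplicit false
set_option linter.style.haveILetI false

namespace Fermat.Agent.TW.Euler.IndAsm

open Fermat.Agent.TW.Euler

section GSetDefs

variable {G : Type} [Group G]

/-- The disjoint union of the coset spaces `G ⧸ D`, `D` running through a list. -/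
def OmegaL (G : Type) [Group G] : List (Subgroup G) → Type
  | [] => PEmpty
  | D :: L => (G ⧸ D) ⊕ OmegaL G L

instance instMulActionPEmpty : MulAction G PEmpty where
  smul _ x := x
  one_smul x := x.elim
  mul_smul _ _ x := x.elim

noncomputable instance instMulActionOmegaL : (L : List (Subgroup G)) → MulAction G (OmegaL G L)
  | [] => inferInstanceAs (MulAction G PEmpty)
  | D :: L =>
    letI := instMulActionOmegaL L
    inferInstanceAs (MulAction G ((G ⧸ D) ⊕ OmegaL G L))

instance instFiniteOmegaL [Finite G] : (L : List (Subgroup G)) → Finite (OmegaL G L)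
  | [] => inferInstanceAs (Finite PEmpty)
  | D :: L =>
    haveI := instFiniteOmegaL L
    inferInstanceAs (Finite ((G ⧸ D) ⊕ OmegaL G L))


end GSetDefs

section Val

variable {k G : Type} [Field k] [Group G] (Φ : AddInv k G)
variable {V : Type} [AddCommGroup V] [Module k V] [Module.Finite k V] (ρ : Representation k G V)

/-- (CONG) isomorphic `G`-sets give the same value. -/
theorem val_permTwist_congr {Ω Ω' : Type} [MulAction G Ω] [MulAction G Ω'] [Finite Ω] [Finite Ω']
    (e : Ω ≃ Ω') (he : ∀ (g : G) (ω : Ω), e (g • ω) = g • e ω) :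
    Φ.val (Ω → V) (permTwist ρ Ω) = Φ.val (Ω' → V) (permTwist ρ Ω') := by
  refine Φ.val_congr (permTwist ρ Ω) (permTwist ρ Ω') (LinearEquiv.funCongrLeft k V e.symm) ?_
  intro g f
  funext ω'
  show ρ g (f (g⁻¹ • e.symm ω')) = ρ g (f (e.symm (g⁻¹ • ω')))
  congr 2
  rw [Equiv.eq_symm_apply, he, Equiv.apply_symm_apply]

/-- (EMPTY) the value on a zero module vanishes. -/
theorem val_eq_zero_of_subsingleton {W : Type} [AddCommGroup W] [Module k W] [Module.Finite k W]
    [Subsingleton W] (σ : Representation k G W) : Φ.val W σ = 0 := by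
  have := Φ.val_exact σ σ σ (0 : W →ₗ[k] W) (0 : W →ₗ[k] W)
    (fun g v => Subsingleton.elim _ _) (fun g v => Subsingleton.elim _ _)
    (fun a b _ => Subsingleton.elim a b) (fun b => ⟨b, Subsingleton.elim _ _⟩)
    (fun y => ⟨fun _ => ⟨y, Subsingleton.elim _ _⟩, fun _ => Subsingleton.elim _ _⟩)
  omega

/-- (ADD) additivity on disjoint unions of `G`-sets. -/
theorem val_permTwist_sum (A B : Type) [MulAction G A] [MulAction G B] [Finite A] [Finite B] :
    Φ.val (A ⊕ B → V) (permTwist ρ (A ⊕ B)) =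
      Φ.val (A → V) (permTwist ρ A) + Φ.val (B → V) (permTwist ρ B) := by
  let f : (A → V) →ₗ[k] (A ⊕ B → V) :=
    { toFun := fun u => Sum.elim u 0
      map_add' := fun u v => by funext x; cases x <;> simp
      map_smul' := fun c u => by funext x; cases x <;> simp }
  let h : (A ⊕ B → V) →ₗ[k] (B → V) :=
    { toFun := fun w => w ∘ Sum.inr
      map_add' := fun u v => rfl
      map_smul' := fun c u => rfl }
  refine Φ.val_exact (permTwist ρ A) (permTwist ρ (A ⊕ B)) (permTwist ρ B) f h ?_ ?_ ?_ ?_ ?_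
  · intro g u
    funext x
    cases x with
    | inl a => rfl
    | inr b => show (0 : V) = ρ g 0; simp
  · intro g w
    rfl
  · intro u v huv
    funext a
    exact congrFun huv (Sum.inl a)
  · intro v
    exact ⟨Sum.elim 0 v, rfl⟩
  · intro w
    constructor
    · intro hw
      refine ⟨w ∘ Sum.inl, ?_⟩
      funext x
      cases x with
      | inl a => rfl
      | inr b => exact (congrFun hw b).symm
    · rintro ⟨u, rfl⟩
      rfl


/-- (LIST) the value on `⊔_{D ∈ L} G ⧸ D`. -/
theorem val_permTwist_omegaL [Finite G] (L : List (Subgroup G)) :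
    Φ.val (OmegaL G L → V) (permTwist ρ (OmegaL G L)) =
      (L.map (fun D => Φ.val (G ⧸ D → V) (permTwist ρ (G ⧸ D)))).sum := by
  induction L with
  | nil =>
    haveI : Subsingleton (OmegaL G [] → V) :=
      ⟨fun a b => funext fun x => (x : PEmpty).elim⟩
    rw [val_eq_zero_of_subsingleton]
    rfl
  | cons D L ih =>
    rw [List.map_cons, List.sum_cons, ← ih]
    exact val_permTwist_sum Φ ρ (G ⧸ D) (OmegaL G L)

/-- (TOP) the one-point `G`-set `G ⧸ ⊤`. -/
theorem val_permTwist_top :
    Φ.val (G ⧸ (⊤ : Subgroup G) → V) (permTwist ρ (G ⧸ (⊤ : Subgroup G))) = Φ.val V ρ := by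
  haveI : Subsingleton (G ⧸ (⊤ : Subgroup G)) := QuotientGroup.subsingleton_quotient_top
  let e : (G ⧸ (⊤ : Subgroup G) → V) ≃ₗ[k] V :=
    { toFun := fun f => f ((1 : G) : G ⧸ (⊤ : Subgroup G))
      map_add' := fun f f' => rfl
      map_smul' := fun c f => rfl
      invFun := fun v _ => v
      left_inv := fun f => funext fun x => congrArg f (Subsingleton.elim _ _)
      right_inv := fun v => rfl }
  refine Φ.val_congr (permTwist ρ (G ⧸ (⊤ : Subgroup G))) ρ e ?_
  intro g f
  show ρ g (f (g⁻¹ • ((1 : G) : G ⧸ (⊤ : Subgroup G)))) = ρ g (f ((1 : G) : G ⧸ (⊤ : Subgroup G)))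
  rw [Subsingleton.elim (g⁻¹ • ((1 : G) : G ⧸ (⊤ : Subgroup G))) ((1 : G) : G ⧸ (⊤ : Subgroup G))]

end Val

section Fixed

variable {G : Type} [Group G]

/-- fixed points on a disjoint union -/
theorem card_fixedBy_sum (A B : Type) [MulAction G A] [MulAction G B] [Finite A] [Finite B]
    (h : G) :
    Nat.card (MulAction.fixedBy (A ⊕ B) h) =
      Nat.card (MulAction.fixedBy A h) + Nat.card (MulAction.fixedBy B h) := by
  rw [← Nat.card_sum]
  apply Nat.card_congr
  refine (Equiv.subtypeSum (p := fun x : A ⊕ B => h • x = x)).trans ?_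
  refine Equiv.sumCongr (Equiv.subtypeEquivRight fun a => ?_) (Equiv.subtypeEquivRight fun b => ?_)
  · show h • (Sum.inl a : A ⊕ B) = Sum.inl a ↔ a ∈ MulAction.fixedBy A h
    rw [MulAction.mem_fixedBy]
    exact Sum.inl_injective.eq_iff
  · show h • (Sum.inr b : A ⊕ B) = Sum.inr b ↔ b ∈ MulAction.fixedBy B h
    rw [MulAction.mem_fixedBy]
    exact Sum.inr_injective.eq_iff

/-- fixed points on `⊔_{D ∈ L} G ⧸ D` -/
theorem card_fixedBy_omegaL [Finite G] (L : List (Subgroup G)) (h : G) :
    Nat.card (MulAction.fixedBy (OmegaL G L) h) =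
      (L.map (fun D => Nat.card (MulAction.fixedBy (G ⧸ D) h))).sum := by
  induction L with
  | nil =>
    haveI : IsEmpty (MulAction.fixedBy (OmegaL G []) h) := ⟨fun x => (x.1 : PEmpty).elim⟩
    rw [Nat.card_of_isEmpty]
    rfl
  | cons D L ih =>
    rw [List.map_cons, List.sum_cons, ← ih]
    exact card_fixedBy_sum (G ⧸ D) (OmegaL G L) h

/-- fixed points on the one-point set -/
theorem card_fixedBy_top (h : G) :
    Nat.card (MulAction.fixedBy (G ⧸ (⊤ : Subgroup G)) h) = 1 := by
  haveI : Subsingleton (G ⧸ (⊤ : Subgroup G)) := QuotientGroup.subsingleton_quotient_top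
  rw [Nat.card_eq_one_iff_unique]
  refine ⟨inferInstance, ⟨⟨((1 : G) : G ⧸ (⊤ : Subgroup G)), Subsingleton.elim _ _⟩⟩⟩

end Fixed

end Fermat.Agent.TW.Euler.IndAsm
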