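/-
Program G (S56), block GW-Euler, node (EU-1e): assembly of the abstract induction theorem.
helper7.  `inductionOut_of : BrauerNesbittOut → InductionOut` from
(b) helper18's `CharpolyReg`, (c) helper6's `charpoly_permTwist_eq_of_card_fixedBy`,
(d) `Artin.exists_artin_families`, and the `G`-set bookkeeping of `IndAsm/GSets.lean`.
-/
import Fermat.Agent.TW.Euler.IndAsm.GSets
import Fermat.Agent.TW.Euler.Ind.PermCharpoly
import Fermat.Agent.TW.Euler.CharpolyReg
import Fermat.Agent.TW.Euler.Artin.Count

set_option autoImplicit false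
set_option linter.style.haveILetI false

namespace Fermat.Agent.TW.Euler.IndAsm

open Fermat.Agent.TW.Euler

/-- **(EU-1)** the abstract induction theorem, from the Brauer–Nesbitt form. -/
theorem inductionOut_of (hBN : BrauerNesbittOut) : InductionOut := by
  intro p _ k G _ _ _ _ _ Φ hΦ V _ _ _ ρ
  obtain ⟨np, nm, Dp, Dm, hDp, hDm, hfix⟩ :=
    Artin.exists_artin_families (G := G) (fun n => ¬ p ∣ n)
      (fun n d hn hd hpd => hn (hpd.trans hd))
  set Lp : List (Subgroup G) := List.ofFn Dp with hLp
  set Lm : List (Subgroup G) := List.ofFn Dm ++ List.replicate (Nat.card G) ⊤ with hLm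
  -- the characteristic polynomials agree
  have hchar : ∀ g : G, LinearMap.charpoly (permTwist ρ (OmegaL G Lp) g) =
      LinearMap.charpoly (permTwist ρ (OmegaL G Lm) g) := by
    intro g
    have hg : IsOfFinOrder g := isOfFinOrder_of_finite g
    rw [CharpolyReg.charpoly_map_eq_charpoly_map_regPart p (permTwist ρ (OmegaL G Lp)) g hg,
      CharpolyReg.charpoly_map_eq_charpoly_map_regPart p (permTwist ρ (OmegaL G Lm)) g hg]
    apply charpoly_permTwist_eq_of_card_fixedBy
    intro l
    have hreg : ¬ p ∣ orderOf (CharpolyReg.regPart p g ^ l) := by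
      intro hdvd
      have h1 : p ∣ orderOf (CharpolyReg.regPart p g) := hdvd.trans (orderOf_pow_dvd l)
      have h2 := CharpolyReg.orderOf_regPart_coprime p g hg
      have h3 : p ∣ 1 := by
        rw [← h2.gcd_eq_one]
        exact Nat.dvd_gcd h1 dvd_rfl
      exact (Fact.out : p.Prime).one_lt.ne' (Nat.dvd_one.mp h3)
    have := hfix _ hreg
    rw [card_fixedBy_omegaL, card_fixedBy_omegaL, hLp, hLm, List.map_append, List.sum_append,
      List.map_ofFn, List.map_ofFn, List.sum_ofFn, List.sum_ofFn, List.map_replicate,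
      List.sum_replicate, card_fixedBy_top, smul_eq_mul, mul_one]
    exact this
  have hval := hBN k G Φ _ _ (permTwist ρ (OmegaL G Lp)) (permTwist ρ (OmegaL G Lm)) hchar
  rw [val_permTwist_omegaL, val_permTwist_omegaL, hLp, hLm, List.map_append, List.sum_append,
    List.map_ofFn, List.map_ofFn, List.sum_ofFn, List.sum_ofFn, List.map_replicate,
    List.sum_replicate, val_permTwist_top] at hval
  have h1 : ∑ i, (fun D => Φ.val (G ⧸ D → V) (permTwist ρ (G ⧸ D))) (Dp i) = 0 :=
    Finset.sum_eq_zero (fun i _ => hΦ (Dp i) (hDp i).1 (hDp i).2 V ρ)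
  have h2 : ∑ i, (fun D => Φ.val (G ⧸ D → V) (permTwist ρ (G ⧸ D))) (Dm i) = 0 :=
    Finset.sum_eq_zero (fun i _ => hΦ (Dm i) (hDm i).1 (hDm i).2 V ρ)
  simp only [Function.comp_apply] at hval h1 h2
  rw [h1, h2, zero_add, nsmul_eq_mul] at hval
  have hN : (Nat.card G : ℤ) ≠ 0 := by
    exact_mod_cast (Nat.card_pos (α := G)).ne'
  exact (mul_eq_zero.mp hval.symm).resolve_left hN

end Fermat.Agent.TW.Euler.IndAsm
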