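/-
Program G (S56), block GW-Euler: **(EU-1) THE ABSTRACT INDUCTION THEOREM, hypothesis-free.**
`inductionOut : InductionOut` (helper8's literal contract, `Ind/Contracts.lean`).
-/
import Fermat.Agent.TW.Euler.IndAsm.Main
import Fermat.Agent.TW.Euler.BN.Final

set_option autoImplicit false

namespace Fermat.Agent.TW.Euler.IndAsm

open Fermat.Agent.TW.Euler

/-- **(EU-1)** an additive invariant of finite-dimensional representations of a finite group over
a finite field of characteristic `p` which vanishes on all `X ⊗ k[G/D]`, `D` cyclic of order prime
to `p`, vanishes identically. -/
theorem inductionOut : InductionOut :=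
  inductionOut_of BN.brauerNesbittOut

end Fermat.Agent.TW.Euler.IndAsm
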